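import Fermat.Agent.H18J.Frac
import Fermat.Agent.H18J.Full
import Fermat.Agent.Igusa.Basis
import Fermat.Agent.H05.ModField

/-!
# Invariance of the Gauss valuation: functions of level `Γ₀(N)`
-/

set_option autoImplicit false
set_option linter.all false

noncomputable section

open UpperHalfPlane hiding I
open ModularForm EisensteinSeries Filter Complex Topology Function CongruenceSubgroup
open scoped MatrixGroups Manifold Real Polynomial
open IsLocalRing (residue ResidueField)

namespace Fermat.Agent.H03K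

open Fermat.Agent.H18J
open Fermat.Agent.H02
open Fermat.Agent.Q (intL mem_intL redL redL_coeff redL_eq_zero_iff C_mem_intL redL_C)
open Fermat.Agent.H18 (jfun theta theta_injective isExp_fun_unique isExp_jfun theta_jqModC
  theta_qExpand isExp_aeval jfun_surjective exists_unit_zr exists_exp_aff)
open Fermat.Agent.Igusa (IsExp TT cc jd twist twist_coeff)
open ModularCurve (coeffMap qExpand jqModC coeffMap_qExpand modularFunctionFieldFullC
  modularFunctionFieldFull laurentBaseChange)

variable {K : Type*} [Field K] [Algebra K ℂ] [IsAlgClosed K] {A : ValuationSubring K} {N : ℕ}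
  [NeZero N]

/-! ### The functions `j(dτ)` -/

variable (K N) in
/-- `j(dτ)` in the big algebra -/
def jdB (d : ℕ) (hd : d ∣ N) : bigAlg K N := ⟨jN d, jN_mem_bigAlg hd⟩

theorem jdB_mem (d : ℕ) (hd : d ∣ N) : jdB K N d hd ∈ intB A N := by
  intro γ
  have hd0 : NeZero d := ⟨fun h => NeZero.ne N (by rwa [h, zero_dvd_iff] at hd)⟩
  obtain ⟨a, e, b, ha, he, hae, h1, h2⟩ := jN_smul (NeZero.pos d) γ⁻¹
  have : NeZero a := ⟨ha.ne'⟩
  have : NeZero e := ⟨he.ne'⟩
  obtain ⟨c, hc⟩ := (Dvd.intro_left a hae).trans hd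
  have : NeZero c := ⟨fun h => NeZero.ne N (by rw [hc, h, mul_zero])⟩
  obtain ⟨F, hF, hF2⟩ := exists_exp_aff (K := K) (a := a) (e := e) (n := c) b
  have h3 : (exists_unit_zr (K := K) e).choose ^ e = 1 := by
    apply Units.ext
    apply (algebraMap K ℂ).injective
    rw [Units.val_pow_eq_pow_val, map_pow, (exists_unit_zr (K := K) e).choose_spec,
      (Igusa.zr_isPrimitiveRoot e).pow_eq_one]
    simp
  set u := (exists_unit_zr (K := K) e).choose ^ b with hu
  have hu1 : u ^ e = 1 := by
    rw [hu, ← zpow_natCast, ← zpow_mul, mul_comm b, zpow_mul, zpow_natCast, h3, one_zpow]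
  have h4 : IsExp N (γ • jdB K N d hd : bigAlg K N) (theta K F) := by
    rw [H18J.coe_smul]
    change IsExp N (tr γ⁻¹ (jN d)) (theta K F)
    rw [h1, hc]
    exact hF
  rw [expK_eq h4, hF2, qExpand_mem_intL_iff, qExpand_mem_intL_iff]
  have hu2 : (u : K) ^ e = 1 := by rw [← Units.val_pow_eq_pow_val, hu1, Units.val_one]
  have hu3 : ((u⁻¹ : Kˣ) : K) ^ e = 1 := by
    rw [← Units.val_pow_eq_pow_val, inv_pow, hu1, inv_one, Units.val_one]
  exact twist_mem_intL (mem_of_pow_eq_one he hu2) (mem_of_pow_eq_one he hu3) jqModC_mem_intL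

theorem expK_jdB (d : ℕ) [NeZero d] (hd : d ∣ N) :
    expK K N (jdB K N d hd) = qExpand K N (jd K d) := by
  apply expK_eq
  rw [theta_qExpand, jd, theta_qExpand, theta_jqModC]
  exact (Igusa.isExp_qExpand_iff N).mpr H18.isExp_jN

theorem smul_jdB {d : ℕ} (hd : d ∣ N) {γ : SL(2, ℤ)} (hγ : γ ∈ Gamma0 N) :
    γ • jdB K N d hd = jdB K N d hd := by
  have hd0 : 0 < d := Nat.pos_of_ne_zero fun h => NeZero.ne N (by rwa [h, zero_dvd_iff] at hd)
  exact Subtype.ext ((jN_mem_modAlg hd0).2 _ (Gamma0_le_of_dvd hd (inv_mem hγ)))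

/-- monomials in the `j(dτ)` -/
theorem exists_u {t : LaurentSeries ℤ} (ht : t ∈ TT N) : ∃ u : intB A N,
    (∀ γ ∈ Gamma0 N, γ • u = u) ∧ expK K N (u : bigAlg K N) = qExpand K N (cc K t) := by
  induction ht using Submonoid.closure_induction with
  | mem x hx =>
    obtain ⟨d, hd, hdN, rfl⟩ := hx
    refine ⟨⟨jdB K N d hdN, jdB_mem d hdN⟩, fun γ hγ => Subtype.ext (smul_jdB hdN hγ), ?_⟩
    rw [cc, Igusa.coeffMap_jd]
    exact expK_jdB d hdN
  | one => exact ⟨1, fun γ _ => smul_one γ, by rw [map_one, map_one]; exact map_one _⟩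
  | mul x y _ _ hx hy =>
    obtain ⟨u, hu, hu'⟩ := hx
    obtain ⟨v, hv, hv'⟩ := hy
    refine ⟨u * v, fun γ hγ => by rw [smul_mul', hu γ hγ, hv γ hγ], ?_⟩
    rw [map_mul, map_mul, ← hu', ← hv', ← map_mul]
    rfl

theorem cc_mem_intL (t : LaurentSeries ℤ) : cc K t ∈ intL A := by
  rw [mem_intL]
  intro n
  rw [ModularCurve.coeffMap_coeff]
  exact intCast_mem A _

theorem redL_cc (t : LaurentSeries ℤ) : redL A ⟨cc K t, cc_mem_intL t⟩ = cc (ResidueField A) t := by
  have h1 : ∀ {R S : Type _} [CommRing R] [CommRing S] (f : R →+* S),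
      coeffMap f (cc R t) = cc S t := by
    intro R S _ _ f
    ext n
    rw [ModularCurve.coeffMap_coeff, ModularCurve.coeffMap_coeff, ModularCurve.coeffMap_coeff]
    simp
  rw [redL_of_lift (h1 A.subtype), h1]

theorem thB_of_exp {u : intB A N} {t : LaurentSeries ℤ}
    (h : expK K N (u : bigAlg K N) = qExpand K N (cc K t)) :
    thB A N u = qExpand (ResidueField A) N (cc (ResidueField A) t) := by
  rw [thB_apply, ← redL_cc (K := K) t, ← redL_qExpand N (cc_mem_intL t)
    ((qExpand_mem_intL_iff N).mpr (cc_mem_intL t))]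
  congr 1
  exact Subtype.ext h

/-! ### Coordinates -/

/-- a common denominator for elements of `k(j)` -/
theorem exists_den {k : Type*} [Field k] {ι : Type*} [Fintype ι] (g : ι → LaurentSeries k)
    (hg : ∀ i, g i ∈ modularFunctionFieldFullC k 1) :
    ∃ (D : k[X]) (P : ι → k[X]), D ≠ 0 ∧
      ∀ i, Polynomial.aeval (jqModC k) D * g i = Polynomial.aeval (jqModC k) (P i) := by
  classical
  have h1 : ∀ i, ∃ P Q : k[X], Q ≠ 0 ∧ Polynomial.aeval (jqModC k) Q * g i =
      Polynomial.aeval (jqModC k) P := by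
    intro i
    have h := hg i
    rw [Igusa.full_one_eq, IntermediateField.mem_adjoin_simple_iff] at h
    obtain ⟨P, Q, hPQ⟩ := h
    by_cases hQ : Polynomial.aeval (jqModC k) Q = 0
    · refine ⟨0, 1, one_ne_zero, ?_⟩
      rw [hPQ, hQ, div_zero, mul_zero, map_zero]
    · refine ⟨P, Q, ?_, ?_⟩
      · rintro rfl; exact hQ (map_zero _)
      · rw [hPQ, mul_div_cancel₀ _ hQ]
  choose P Q hQ hPQ using h1
  refine ⟨∏ i, Q i, fun i => (∏ l ∈ Finset.univ.erase i, Q l) * P i,
    Finset.prod_ne_zero_iff.mpr fun i _ => hQ i, fun i => ?_⟩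
  rw [← Finset.mul_prod_erase _ _ (Finset.mem_univ i), map_mul, map_mul, ← hPQ i]
  ring

theorem algebraMap_thB_evJ (P : A[X]) : thB A N (evJ A N P) =
    qExpand (ResidueField A) N (Polynomial.aeval (jqModC (ResidueField A)) (P.map (residue A))) := by
  rw [thB_evJ]
  exact Polynomial.aeval_algHom_apply (qX (ResidueField A) N) _ _

theorem expK_evJ (P : A[X]) : expK K N (evJ A N P : intB A N) =
    qExpand K N (Polynomial.aeval (jqModC K) (P.map (algebraMap A K))) := by
  rw [coe_evJ, ← Polynomial.aeval_algHom_apply, expK_jF]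
  exact Polynomial.aeval_algHom_apply (qX K N) _ _

section Rel

variable [Algebra ℚ K]

open Fermat.Agent.Igusa in
/-- good elements of level `Γ₀(N)` -/
theorem exists_rel (hk : ((N : ℕ) : ResidueField A) ≠ 0) :
    ∃ u : Fin (ModularCurve.dedekindPsi N) → intB A N,
      (∀ i, ∀ γ ∈ Gamma0 N, γ • u i = u i) ∧
      (∀ Q : Fin (ModularCurve.dedekindPsi N) → (ResidueField A)[X],
        ∑ i, qExpand (ResidueField A) N (Polynomial.aeval (jqModC (ResidueField A)) (Q i)) *
          thB A N (u i) = 0 → ∀ i, Q i = 0) ∧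
      ∀ f : intB A N, (∀ γ ∈ Gamma0 N, γ • f = f) →
        ∃ (G : A[X]) (P : Fin (ModularCurve.dedekindPsi N) → A[X]), G.map (residue A) ≠ 0 ∧
          evJ A N G * f = ∑ i, evJ A N (P i) * u i := by
  have : CharZero K := (algebraMap K ℂ).charZero
  obtain ⟨t, ht, hli⟩ := Igusa.exists_basis (ResidueField A) N hk
  choose u hu hu' using fun i => exists_u (K := K) (A := A) (ht i)
  have hth : ∀ i, thB A N (u i) = qExpand (ResidueField A) N (cc (ResidueField A) (t i)) :=
    fun i => thB_of_exp (hu' i)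
  have hind : ∀ Q : Fin (ModularCurve.dedekindPsi N) → (ResidueField A)[X],
        ∑ i, qExpand (ResidueField A) N (Polynomial.aeval (jqModC (ResidueField A)) (Q i)) *
          thB A N (u i) = 0 → ∀ i, Q i = 0 := by
    intro Q hQ i
    have hmem : ∀ i, Polynomial.aeval (jqModC (ResidueField A)) (Q i) ∈
        modularFunctionFieldFullC (ResidueField A) 1 := fun i => by
      rw [full_one_eq]
      exact (IntermediateField.algebra_adjoin_le_adjoin _ _)
        (Polynomial.aeval_mem_adjoin_singleton _ _)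
    have h1 : ∑ i, Polynomial.aeval (jqModC (ResidueField A)) (Q i) *
        cc (ResidueField A) (t i) = 0 := by
      apply ModularCurve.qExpand_injective N
      rw [map_sum, map_zero, ← hQ]
      exact Finset.sum_congr rfl fun i _ => by rw [map_mul, hth]
    have h2 := Fintype.linearIndependent_iff.mp hli (fun i => ⟨_, hmem i⟩) h1 i
    exact (transcendental_iff.mp (H05.transcendental_j (ResidueField A))) _
      (congrArg Subtype.val h2)
  -- independence in characteristic zero
  have hsum0 : ∀ R : Fin (ModularCurve.dedekindPsi N) → A[X],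
      ∑ i, Polynomial.aeval (jqModC K) ((R i).map (algebraMap A K)) * cc K (t i) = 0 →
      ∀ i, (R i).map (residue A) = 0 := by
    intro R hR
    apply hind
    have h1 : ∑ i, evJ A N (R i) * u i = 0 := by
      apply Subtype.ext
      apply expK_injective
      have h2 : expK K N ((∑ i, evJ A N (R i) * u i : intB A N) : bigAlg K N) =
          ∑ i, expK K N (evJ A N (R i) : intB A N) * expK K N (u i : intB A N) := by
        rw [AddSubmonoidClass.coe_finset_sum, map_sum]
        exact Finset.sum_congr rfl fun i _ => map_mul _ _ _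
      rw [h2]
      have h3 : expK K N ((0 : intB A N) : bigAlg K N) = 0 := map_zero _
      rw [h3, ← map_zero (qExpand K N), ← hR, map_sum]
      exact Finset.sum_congr rfl fun i _ => by rw [expK_evJ, hu', map_mul]
    have h2 := congrArg (thB A N) h1
    rw [map_sum, map_zero] at h2
    rw [← h2]
    exact Finset.sum_congr rfl fun i _ => by rw [map_mul, algebraMap_thB_evJ]
  have hliK : LinearIndependent (modularFunctionFieldFullC K 1) (fun i => cc K (t i)) := by
    rw [Fintype.linearIndependent_iff]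
    intro g hg i
    obtain ⟨D, P, hD, hP⟩ := exists_den (fun i => (g i : LaurentSeries K)) fun i => (g i).2
    have hDj : Polynomial.aeval (jqModC K) D ≠ 0 := fun h =>
      hD ((transcendental_iff.mp (H05.transcendental_j K)) _ h)
    by_contra hgi
    have hPi : P i ≠ 0 := by
      intro h0
      have h1 := hP i
      rw [h0, map_zero] at h1
      exact hgi (Subtype.ext ((mul_eq_zero.mp h1).resolve_left hDj))
    obtain ⟨c, hc, R, hR, l, hl⟩ := H29.exists_scale_poly (residue A) P ⟨i, hPi⟩
    apply hl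
    apply hsum0
    have h1 : ∑ i, (g i : LaurentSeries K) * cc K (t i) = 0 := hg
    have h2 : (algebraMap K (LaurentSeries K) c) *
        ∑ i, Polynomial.aeval (jqModC K) ((R i).map (algebraMap A K)) * cc K (t i) = 0 := by
      rw [Finset.mul_sum, ← mul_zero (Polynomial.aeval (jqModC K) D), ← h1, Finset.mul_sum]
      refine Finset.sum_congr rfl fun i _ => ?_
      rw [← mul_assoc, ← mul_assoc, hP i, hR i, map_mul, Polynomial.aeval_C]
    exact (mul_eq_zero.mp h2).resolve_left fun h => hc ((map_eq_zero _).mp h)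
  refine ⟨u, fun i => hu i, hind, fun f hf => ?_⟩
  have hT : tr ModularGroup.T ((f : bigAlg K N) : ℍ → ℂ) = (f : bigAlg K N) := by
    have h1 := congrArg (fun x : intB A N => ((x : bigAlg K N) : ℍ → ℂ))
      (hf ModularGroup.T⁻¹ (inv_mem ((isLevel_Gamma0 N).T_mem)))
    have h2 : (((ModularGroup.T⁻¹ • f : intB A N) : bigAlg K N) : ℍ → ℂ) =
      tr (ModularGroup.T⁻¹)⁻¹ ((f : bigAlg K N) : ℍ → ℂ) := rfl
    rw [inv_inv] at h2
    exact h2.symm.trans h1
  obtain ⟨F, hF, hF2⟩ := exists_ringS hT
  have hFm : F ∈ modularFunctionFieldFullC K N := by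
    rw [← H05.laurentBaseChange_full, ← FK_Gamma0]
    refine mem_FK_of_mem ⟨_, ⟨isSlow_of_mem (f : bigAlg K N).2, fun γ hγ => ?_⟩, hF⟩
    have h1 := congrArg (fun x : intB A N => ((x : bigAlg K N) : ℍ → ℂ)) (hf γ⁻¹ (inv_mem hγ))
    have h2 : (((γ⁻¹ • f : intB A N) : bigAlg K N) : ℍ → ℂ) =
      tr (γ⁻¹)⁻¹ ((f : bigAlg K N) : ℍ → ℂ) := rfl
    rw [inv_inv] at h2
    exact h2.symm.trans h1
  have hNK : ((N : ℕ) : K) ≠ 0 := Nat.cast_ne_zero.mpr (NeZero.ne N)
  have hmem : ∀ i, cc K (t i) ∈ modularFunctionFieldFullC K N := by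
    intro i
    have h1 : cc K (t i) ∈ Submodule.span (modularFunctionFieldFullC K 1)
        ((cc K) '' (TT N : Set (LaurentSeries ℤ))) := Submodule.subset_span ⟨t i, ht i, rfl⟩
    rw [span_eq K N hNK] at h1
    exact h1
  obtain ⟨g, hg⟩ := exists_coords K N hNK _ hmem hliK hFm
  obtain ⟨D, P, hD, hP⟩ := exists_den (fun i => (g i : LaurentSeries K)) fun i => (g i).2
  have hDF : Polynomial.aeval (jqModC K) D * F =
      ∑ i, Polynomial.aeval (jqModC K) (P i) * cc K (t i) := by
    rw [hg, Finset.mul_sum]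
    exact Finset.sum_congr rfl fun i _ => by rw [← mul_assoc, hP i]
  obtain ⟨c, hc, R, hR, l, hl⟩ := H29.exists_scale_poly (residue A)
    (fun o : Option (Fin (ModularCurve.dedekindPsi N)) => o.elim D P) ⟨none, hD⟩
  have hD' : D = Polynomial.C c * (R none).map (algebraMap A K) := hR none
  have hP' : ∀ i, P i = Polynomial.C c * (R (some i)).map (algebraMap A K) := fun i => hR (some i)
  have hcL : algebraMap K (LaurentSeries K) c ≠ 0 := by rwa [ne_eq, map_eq_zero]
  have h1 : Polynomial.aeval (jqModC K) ((R none).map (algebraMap A K)) * F =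
      ∑ i, Polynomial.aeval (jqModC K) ((R (some i)).map (algebraMap A K)) * cc K (t i) := by
    apply mul_left_cancel₀ hcL
    rw [← mul_assoc, Finset.mul_sum]
    have h2 : algebraMap K (LaurentSeries K) c *
        Polynomial.aeval (jqModC K) ((R none).map (algebraMap A K)) =
          Polynomial.aeval (jqModC K) D := by
      rw [hD', map_mul, Polynomial.aeval_C]
    rw [h2, hDF]
    refine Finset.sum_congr rfl fun i _ => ?_
    rw [hP' i, map_mul, Polynomial.aeval_C, mul_assoc]
  have h2 : evJ A N (R none) * f = ∑ i, evJ A N (R (some i)) * u i := by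
    apply Subtype.ext
    apply expK_injective
    have h3 : expK K N ((∑ i, evJ A N (R (some i)) * u i : intB A N) : bigAlg K N) =
        ∑ i, expK K N (evJ A N (R (some i)) : intB A N) * expK K N (u i : intB A N) := by
      rw [AddSubmonoidClass.coe_finset_sum, map_sum]
      exact Finset.sum_congr rfl fun i _ => map_mul _ _ _
    have h4 : expK K N ((evJ A N (R none) * f : intB A N) : bigAlg K N) =
        expK K N (evJ A N (R none) : intB A N) * expK K N (f : bigAlg K N) := map_mul _ _ _
    rw [h3, h4, expK_evJ, ← hF2, ← map_mul, h1, map_sum]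
    exact Finset.sum_congr rfl fun i _ => by rw [expK_evJ, hu', map_mul]
  refine ⟨R none, fun i => R (some i), fun h0 => ?_, h2⟩
  have h3 := congrArg (thB A N) h2
  rw [map_mul, algebraMap_thB_evJ, h0, map_zero, map_zero, zero_mul, map_sum] at h3
  have h4 := hind (fun i => (R (some i)).map (residue A)) (by
    rw [h3]
    exact Finset.sum_congr rfl fun i _ => by rw [map_mul, algebraMap_thB_evJ])
  rcases l with _ | i
  · exact hl h0
  · exact hl (h4 i)

/-- `ALPHA` for functions of level `Γ₀(N)`. -/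
theorem key0 (hk : ((N : ℕ) : ResidueField A) ≠ 0) {f : intB A N}
    (hf : ∀ γ ∈ Gamma0 N, γ • f = f) (h0 : thB A N f = 0) (γ : SL(2, ℤ)) :
    thB A N (γ • f) = 0 := by
  obtain ⟨u, hu, hind, hspan⟩ := exists_rel (K := K) (A := A) (N := N) hk
  obtain ⟨G, P, hG, hGP⟩ := hspan f hf
  have h1 := congrArg (thB A N) hGP
  rw [map_mul, h0, mul_zero, map_sum] at h1
  have h2 := hind (fun i => (P i).map (residue A)) (by
    rw [h1]
    exact Finset.sum_congr rfl fun i _ => by rw [map_mul, algebraMap_thB_evJ])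
  have h3 : evJ A N G * (γ • f) = ∑ i, evJ A N (P i) * (γ • u i) := by
    have h4 := congrArg (fun x => γ • x) hGP
    simp only [smul_mul', smul_evJ, Finset.smul_sum] at h4
    exact h4
  have h4 := congrArg (thB A N) h3
  rw [map_mul, map_sum] at h4
  have h5 : ∀ i, thB A N (evJ A N (P i) * (γ • u i)) = 0 := fun i => by
    rw [map_mul, thB_evJ_eq_zero.mpr (h2 i), zero_mul]
  rw [Finset.sum_eq_zero fun i _ => h5 i] at h4
  exact (mul_eq_zero.mp h4).resolve_left fun h => hG (thB_evJ_eq_zero.mp h)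

end Rel

end Fermat.Agent.H03K
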