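import Fermat.Agent.H03K.Alpha0
import Mathlib.RingTheory.Invariant.Basic
import Mathlib.LinearAlgebra.Matrix.FixedDetMatrices

/-!
# Invariance of the Gauss valuation under `SL₂(ℤ)`
-/

set_option autoImplicit false
set_option linter.all false

noncomputable section

open UpperHalfPlane hiding I
open ModularForm EisensteinSeries Filter Complex Topology Function CongruenceSubgroup
open scoped MatrixGroups Manifold Real Polynomial Pointwise
open IsLocalRing (residue ResidueField)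

namespace Fermat.Agent.H03K

open Fermat.Agent.H18J
open Fermat.Agent.H02
open Fermat.Agent.Q (intL mem_intL redL redL_coeff redL_eq_zero_iff C_mem_intL redL_C)
open Fermat.Agent.H18 (jfun theta theta_injective isExp_fun_unique isExp_jfun theta_jqModC
  theta_qExpand isExp_aeval jfun_surjective exists_unit_zr exists_exp_aff)
open Fermat.Agent.Igusa (IsExp TT cc jd twist twist_coeff zr)
open ModularCurve (coeffMap qExpand jqModC coeffMap_qExpand modularFunctionFieldFullC
  modularFunctionFieldFull laurentBaseChange)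

variable {K : Type*} [Field K] [Algebra K ℂ] {A : ValuationSubring K} {N : ℕ} [NeZero N]

/-! ### Invariants of `Γ₀(N)` -/

variable (A N) in
/-- the `Γ₀(N)`-invariants -/
def invB : Subring (intB A N) where
  carrier := {f | ∀ γ ∈ Gamma0 N, γ • f = f}
  one_mem' γ _ := smul_one γ
  zero_mem' γ _ := smul_zero γ
  add_mem' {a b} ha hb γ hγ := by rw [smul_add, ha γ hγ, hb γ hγ]
  mul_mem' {a b} ha hb γ hγ := by rw [smul_mul', ha γ hγ, hb γ hγ]
  neg_mem' {a} ha γ hγ := by rw [smul_neg, ha γ hγ]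

theorem mem_invB {f : intB A N} : f ∈ invB A N ↔ ∀ γ ∈ Gamma0 N, γ • f = f := Iff.rfl

variable (A N) in
/-- the structure map -/
def evI : A[X] →+* invB A N := (evJ A N).codRestrict (invB A N) fun P γ _ => smul_evJ γ P

theorem coe_evI (P : A[X]) : ((evI A N P : invB A N) : intB A N) = evJ A N P := rfl

theorem isInt_evI (f : invB A N) : (evI A N).IsIntegralElem f := by
  obtain ⟨P, hP, h⟩ := isInt_intB (f : intB A N)
  refine ⟨P, hP, ?_⟩
  apply Subtype.ext
  have h1 := Polynomial.hom_eval₂ P (evI A N) (invB A N).subtype f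
  change ((P.eval₂ (evI A N) f : invB A N) : intB A N) =
    P.eval₂ ((invB A N).subtype.comp (evI A N)) (f : intB A N) at h1
  rw [h1]
  exact h

instance inv_inst : Algebra.IsInvariant (invB A N) (intB A N)
    (GB A (Gamma0 N) : Subgroup (RingAut (intB A N))) := ⟨fun f hf => by
  exact ⟨⟨f, fun γ hγ => hf ⟨autB A N γ, ⟨γ, hγ, rfl⟩⟩⟩, rfl⟩⟩

instance comm_inst : SMulCommClass (GB A (Gamma0 N) : Subgroup (RingAut (intB A N)))
    (invB A N) (intB A N) := ⟨by
  rintro ⟨_, γ, hγ, rfl⟩ a b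
  show autB A N γ (a.1 * b) = a.1 * autB A N γ b
  rw [map_mul]
  congr 1
  exact a.2 γ hγ⟩

variable (A N) in
/-- the prime of the Gauss valuation, moved by `γ` -/
def PP (γ : SL(2, ℤ)) : Ideal (intB A N) :=
  RingHom.ker ((thB A N).comp (MulSemiringAction.toRingHom SL(2, ℤ) (intB A N) γ))

theorem mem_PP {γ : SL(2, ℤ)} {f : intB A N} : f ∈ PP A N γ ↔ thB A N (γ • f) = 0 := Iff.rfl

instance prime_PP (γ : SL(2, ℤ)) : (PP A N γ).IsPrime := RingHom.ker_isPrime _

/-- comparison of primes with an inclusion over the `Γ₀(N)`-invariants -/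
theorem under_eq (h0 : ∀ f : intB A N, (∀ γ ∈ Gamma0 N, γ • f = f) → thB A N f = 0 →
    ∀ γ : SL(2, ℤ), thB A N (γ • f) = 0) (γ : SL(2, ℤ)) :
    (PP A N 1).under (invB A N) = (PP A N γ).under (invB A N) := by
  have hle : (PP A N 1).under (invB A N) ≤ (PP A N γ).under (invB A N) := by
    intro f hf
    rw [Ideal.under_def, Ideal.mem_comap, mem_PP] at hf ⊢
    rw [one_smul] at hf
    exact h0 f f.2 hf γ
  apply le_antisymm hle
  intro f hf
  by_contra hcon
  letI : Algebra A[X] (invB A N) := (evI A N).toAlgebra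
  have h1 := Ideal.comap_lt_comap_of_integral_mem_sdiff (R := A[X]) hle (x := f) ⟨hf, hcon⟩
    (isInt_evI f)
  refine h1.not_ge fun P hP => ?_
  change thB A N (γ • evJ A N P) = 0 at hP
  rw [smul_evJ] at hP
  change thB A N ((1 : SL(2, ℤ)) • evJ A N P) = 0
  rw [smul_evJ]
  exact hP

/-- `Γ₀(N)` acts transitively on the relevant primes. -/
theorem exists_mul (h0 : ∀ f : intB A N, (∀ γ ∈ Gamma0 N, γ • f = f) → thB A N f = 0 →
    ∀ γ : SL(2, ℤ), thB A N (γ • f) = 0) (γ : SL(2, ℤ)) :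
    ∃ h ∈ Gamma0 N, ∀ f : intB A N, thB A N ((γ * h) • f) = 0 ↔ thB A N f = 0 := by
  obtain ⟨⟨_, h, hh, rfl⟩, hg⟩ := Algebra.IsInvariant.exists_smul_of_under_eq (invB A N)
    (intB A N) (GB A (Gamma0 N) : Subgroup (RingAut (intB A N))) (PP A N 1) (PP A N γ)
    (under_eq h0 γ)
  refine ⟨h, hh, fun f => ?_⟩
  have h1 : (h • f ∈ PP A N γ) ↔ f ∈ PP A N 1 := by
    rw [hg]
    exact Ideal.smul_mem_pointwise_smul_iff
      (a := (⟨autB A N h, h, hh, rfl⟩ : (GB A (Gamma0 N) : Subgroup (RingAut (intB A N)))))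
  rw [mem_PP, mem_PP, ← mul_smul, one_smul] at h1
  exact h1

/-! ### The translation -/

theorem expK_smul_T [IsAlgClosed K] (f : bigAlg K N) : expK K N (ModularGroup.T • f) =
    twist ((exists_unit_zr (K := K) N).choose ^ (-1 : ℤ)) (expK K N f) := by
  apply expK_eq
  have h1 := isExp_expK f
  have h0 : theta K (twist ((exists_unit_zr (K := K) N).choose ^ (-1 : ℤ)) (expK K N f)) =
      twist (zr N ^ (-1 : ℤ)) (theta K (expK K N f)) := by
    ext n
    rw [ModularCurve.coeffMap_coeff, twist_coeff, twist_coeff, ModularCurve.coeffMap_coeff,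
      map_mul]
    congr 1
    rw [Units.val_zpow_eq_zpow_val, Units.val_zpow_eq_zpow_val, Units.val_zpow_eq_zpow_val,
      Units.val_zpow_eq_zpow_val, map_zpow₀, map_zpow₀,
      (exists_unit_zr (K := K) N).choose_spec]
  rw [h0]
  intro τ
  have h3 := h1 (ModularGroup.T⁻¹ • τ)
  have h4 : Function.Periodic.qParam (N : ℝ) ((ModularGroup.T⁻¹ • τ : ℍ) : ℂ) =
      ((zr N ^ (-1 : ℤ) : ℂˣ) : ℂ) * Function.Periodic.qParam (N : ℝ) (τ : ℂ) := by
    have h5 : ((ModularGroup.T⁻¹ • τ : ℍ) : ℂ) = τ + (-1 : ℤ) := by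
      rw [← zpow_neg_one, UpperHalfPlane.modular_T_zpow_smul]
      simp [add_comm]
    have h6 : (N : ℂ) ≠ 0 := by exact_mod_cast NeZero.ne N
    rw [h5, Function.Periodic.qParam, Function.Periodic.qParam, Units.val_zpow_eq_zpow_val, zr,
      Units.val_mk0, ← Complex.exp_int_mul, ← Complex.exp_add]
    congr 1
    push_cast
    ring
  simp only [h4, mul_zpow] at h3
  have h7 : ((ModularGroup.T • f : bigAlg K N) : ℍ → ℂ) τ =
      (f : ℍ → ℂ) (ModularGroup.T⁻¹ • τ) := rfl
  have h8 : (fun n : ℤ => (twist (zr N ^ (-1 : ℤ)) (theta K (expK K N f))).coeff n *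
      Function.Periodic.qParam (N : ℝ) (τ : ℂ) ^ n) = fun n : ℤ =>
      (theta K (expK K N f)).coeff n * (((zr N ^ (-1 : ℤ) : ℂˣ) : ℂ) ^ n *
        Function.Periodic.qParam (N : ℝ) (τ : ℂ) ^ n) := by
    funext n
    rw [Igusa.twist_coeff, Units.val_zpow_eq_zpow_val (zr N ^ (-1 : ℤ)) n]
    ring
  rw [h7, h8]
  exact h3

theorem unit_zr_pow [IsAlgClosed K] : (exists_unit_zr (K := K) N).choose ^ N = 1 := by
  apply Units.ext
  apply (algebraMap K ℂ).injective
  rw [Units.val_pow_eq_pow_val, map_pow, (exists_unit_zr (K := K) N).choose_spec,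
    (Igusa.zr_isPrimitiveRoot N).pow_eq_one]
  simp

theorem mem_nonunits_mul_iff {L : Type*} [Field L] {A : ValuationSubring L} {x u : L} {n : ℕ}
    (hn : 0 < n) (hu : u ^ n = 1) : x * u ∈ A.nonunits ↔ x ∈ A.nonunits := by
  have h1 : u ∈ A := mem_of_pow_eq_one hn hu
  have hu0 : u ≠ 0 := by
    rintro rfl
    rw [zero_pow hn.ne'] at hu
    exact zero_ne_one hu
  have h2 : u⁻¹ ∈ A := mem_of_pow_eq_one hn (by rw [inv_pow, hu, inv_one])
  have hv : A.valuation u = 1 := by
    apply le_antisymm ((A.valuation_le_one_iff _).mpr h1)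
    have h3 := (A.valuation_le_one_iff _).mpr h2
    rw [map_inv₀] at h3
    have h4 : A.valuation u ≠ 0 := by simpa using hu0
    exact (inv_le_one₀ (zero_lt_iff.mpr h4)).mp h3
  rw [ValuationSubring.mem_nonunits_iff, ValuationSubring.mem_nonunits_iff, map_mul, hv, mul_one]

theorem thB_smul_T [IsAlgClosed K] (f : intB A N) :
    thB A N (ModularGroup.T • f) = 0 ↔ thB A N f = 0 := by
  rw [thB_apply, thB_apply, redL_eq_zero_iff, redL_eq_zero_iff]
  refine forall_congr' fun n => ?_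
  have h1 : (expK K N ((ModularGroup.T • f : intB A N) : bigAlg K N)) =
      twist ((exists_unit_zr (K := K) N).choose ^ (-1 : ℤ)) (expK K N (f : bigAlg K N)) :=
    expK_smul_T _
  show (expK K N ((ModularGroup.T • f : intB A N) : bigAlg K N)).coeff n ∈ A.nonunits ↔
    (expK K N (f : bigAlg K N)).coeff n ∈ A.nonunits
  rw [h1, twist_coeff]
  apply mem_nonunits_mul_iff (NeZero.pos N)
  rw [← Units.val_pow_eq_pow_val]
  have : ((((exists_unit_zr (K := K) N).choose ^ (-1 : ℤ)) ^ n) ^ N : Kˣ) = 1 := by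
    rw [← zpow_natCast, ← zpow_mul, ← zpow_mul, ← mul_assoc, mul_comm _ (N : ℤ), zpow_mul,
      zpow_natCast, unit_zr_pow, one_zpow]
  rw [this, Units.val_one]

/-! ### The stabiliser -/

variable (A N) in
/-- the stabiliser of the Gauss valuation -/
def DG : Subgroup SL(2, ℤ) where
  carrier := {γ | ∀ f : intB A N, thB A N (γ • f) = 0 ↔ thB A N f = 0}
  one_mem' f := by rw [one_smul]
  mul_mem' {a b} ha hb f := by
    rw [mul_smul]
    exact (ha _).trans (hb f)
  inv_mem' {a} ha f := by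
    have := ha (a⁻¹ • f)
    rw [smul_inv_smul] at this
    exact this.symm

theorem mem_DG {γ : SL(2, ℤ)} :
    γ ∈ DG A N ↔ ∀ f : intB A N, thB A N (γ • f) = 0 ↔ thB A N f = 0 := Iff.rfl

theorem Gamma_le_DG : CongruenceSubgroup.Gamma N ≤ DG A N := by
  intro γ hγ f
  have h1 := autB_eq_one (A := A) hγ
  have h2 : γ • f = f := congrArg (fun e : RingAut (intB A N) => e f) h1
  rw [h2]

theorem mem_DG_of_congr {γ δ : SL(2, ℤ)} (h : γ ∈ DG A N)
    (hc : Matrix.SpecialLinearGroup.map (Int.castRingHom (ZMod N)) γ =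
      Matrix.SpecialLinearGroup.map (Int.castRingHom (ZMod N)) δ) : δ ∈ DG A N := by
  have h1 : γ⁻¹ * δ ∈ CongruenceSubgroup.Gamma N := by
    rw [CongruenceSubgroup.Gamma, MonoidHom.mem_ker, map_mul, map_inv, hc, inv_mul_cancel]
  have h2 := mul_mem h (Gamma_le_DG (A := A) h1)
  rwa [mul_inv_cancel_left] at h2

theorem T_mem_DG [IsAlgClosed K] : ModularGroup.T ∈ DG A N := fun f => thB_smul_T f

/-- the conjugate of `T` by an element of `Γ₀(N)` -/
theorem conj_T_congr {h : SL(2, ℤ)} (hh : h ∈ Gamma0 N) :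
    Matrix.SpecialLinearGroup.map (Int.castRingHom (ZMod N)) (h * ModularGroup.T * h⁻¹) =
      Matrix.SpecialLinearGroup.map (Int.castRingHom (ZMod N))
        (ModularGroup.T ^ ((h 0 0) ^ 2 : ℤ)) := by
  have hc : ((h 1 0 : ℤ) : ZMod N) = 0 := Gamma0_mem.mp hh
  ext i j
  rw [Matrix.SpecialLinearGroup.map_apply_coe, Matrix.SpecialLinearGroup.map_apply_coe,
    ModularGroup.coe_T_zpow]
  have h1 : ((h * ModularGroup.T * h⁻¹ : SL(2, ℤ)) : Matrix (Fin 2) (Fin 2) ℤ) =
      !![1 - h 0 0 * h 1 0, (h 0 0) ^ 2; -(h 1 0) ^ 2, 1 + h 0 0 * h 1 0] := by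
    have hdet := h.det_coe
    rw [Matrix.det_fin_two] at hdet
    rw [Matrix.SpecialLinearGroup.coe_mul, Matrix.SpecialLinearGroup.coe_mul,
      Matrix.SpecialLinearGroup.coe_inv, Matrix.adjugate_fin_two, ModularGroup.coe_T]
    ext a b
    fin_cases a <;> fin_cases b <;>
      simp [Matrix.mul_apply, Fin.sum_univ_two] <;> first | ring1 | linear_combination hdet
  rw [h1]
  fin_cases i <;> fin_cases j <;> simp [hc]

theorem S_conj_T_mem [IsAlgClosed K] (h0 : ∀ f : intB A N, (∀ γ ∈ Gamma0 N, γ • f = f) →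
    thB A N f = 0 → ∀ γ : SL(2, ℤ), thB A N (γ • f) = 0) :
    ModularGroup.S * ModularGroup.T * ModularGroup.S⁻¹ ∈ DG A N := by
  obtain ⟨h, hh, hD⟩ := exists_mul h0 ModularGroup.S
  have h1 : ModularGroup.S * h ∈ DG A N := hD
  have h2 : (ModularGroup.S * h) * ModularGroup.T * (ModularGroup.S * h)⁻¹ ∈ DG A N :=
    mul_mem (mul_mem h1 T_mem_DG) (inv_mem h1)
  set a : ℤ := (h 0 0) ^ 2 with ha
  have h3 : ModularGroup.S * ModularGroup.T ^ a * ModularGroup.S⁻¹ ∈ DG A N := by
    refine mem_DG_of_congr h2 ?_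
    have h4 : (ModularGroup.S * h) * ModularGroup.T * (ModularGroup.S * h)⁻¹ =
        ModularGroup.S * (h * ModularGroup.T * h⁻¹) * ModularGroup.S⁻¹ := by group
    rw [h4, map_mul, map_mul, conj_T_congr hh, ← map_mul, ← map_mul]
  -- `a` is a unit modulo `N`
  obtain ⟨b, hb⟩ : ∃ b : ℤ, ((a * b : ℤ) : ZMod N) = 1 := by
    have hdet := h.det_coe
    rw [Matrix.det_fin_two] at hdet
    have hc : ((h 1 0 : ℤ) : ZMod N) = 0 := Gamma0_mem.mp hh
    refine ⟨(h 1 1) ^ 2, ?_⟩
    have h5 := congrArg (Int.cast : ℤ → ZMod N) hdet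
    push_cast at h5
    rw [hc, mul_zero, sub_zero] at h5
    rw [ha]
    push_cast
    rw [← mul_pow, h5, one_pow]
  have h4 : (ModularGroup.S * ModularGroup.T ^ a * ModularGroup.S⁻¹) ^ b ∈ DG A N :=
    zpow_mem h3 b
  refine mem_DG_of_congr h4 ?_
  have h5 : (ModularGroup.S * ModularGroup.T ^ a * ModularGroup.S⁻¹) ^ b =
      ModularGroup.S * ModularGroup.T ^ (a * b) * ModularGroup.S⁻¹ := by
    rw [conj_zpow, ← zpow_mul]
  have h6 : Matrix.SpecialLinearGroup.map (Int.castRingHom (ZMod N))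
      (ModularGroup.T ^ (a * b)) =
      Matrix.SpecialLinearGroup.map (Int.castRingHom (ZMod N)) ModularGroup.T := by
    ext i j
    rw [Matrix.SpecialLinearGroup.map_apply_coe, Matrix.SpecialLinearGroup.map_apply_coe,
      ModularGroup.coe_T_zpow, ModularGroup.coe_T]
    fin_cases i <;> fin_cases j <;> simp
    have := hb
    push_cast at this
    exact this
  rw [h5, map_mul, map_mul, h6, ← map_mul, ← map_mul]

theorem DG_eq_top [IsAlgClosed K] (h0 : ∀ f : intB A N, (∀ γ ∈ Gamma0 N, γ • f = f) →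
    thB A N f = 0 → ∀ γ : SL(2, ℤ), thB A N (γ • f) = 0) : DG A N = ⊤ := by
  rw [eq_top_iff, ← SpecialLinearGroup.SL2Z_generators, Subgroup.closure_le]
  have h1 := S_conj_T_mem h0
  have h2 : ModularGroup.S⁻¹ = ModularGroup.T *
      (ModularGroup.S * ModularGroup.T * ModularGroup.S⁻¹) * ModularGroup.T := by
    ext i j
    fin_cases i <;> fin_cases j <;> simp [ModularGroup.S, ModularGroup.T, Matrix.mul_apply,
      Fin.sum_univ_two, Matrix.adjugate_fin_two]
  have h3 : ModularGroup.S ∈ DG A N := by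
    rw [← inv_inv ModularGroup.S, h2]
    exact inv_mem (mul_mem (mul_mem T_mem_DG h1) T_mem_DG)
  rintro _ (rfl | rfl)
  · exact h3
  · exact T_mem_DG

/-- **ALPHA**: the Gauss valuation is invariant under `SL₂(ℤ)`. -/
theorem alpha [IsAlgClosed K] [Algebra ℚ K] (hk : ((N : ℕ) : ResidueField A) ≠ 0)
    (γ : SL(2, ℤ)) (f : intB A N) : thB A N (γ • f) = 0 ↔ thB A N f = 0 := by
  have h1 : γ ∈ DG A N := by
    rw [DG_eq_top fun f hf h0 γ => key0 hk hf h0 γ]
    trivial
  exact h1 f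

end Fermat.Agent.H03K
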