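import Fermat.Agent.H03K.WRed

/-!
# `WRed` and `PrimFK`
-/

set_option autoImplicit false
set_option linter.all false
set_option maxSynthPendingDepth 3

noncomputable section

namespace Fermat.Agent.H03K

open AlgebraicCurve ModularCurve CongruenceSubgroup
open Fermat.Agent.H22 (GamH)
open Fermat.Agent.H18J (FK dia ringS mem_FK_iff mem_FK_of_mem dia_one)
open Fermat.Agent.H11J (Prim PrimFK)

local notation "Qb" => AlgebraicClosure ℚ

variable [Algebra (AlgebraicClosure ℚ) ℂ] {A : ValuationSubring (AlgebraicClosure ℚ)} {N : ℕ}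
  [NeZero N] {H : Subgroup (ZMod N)ˣ}

/-- **The Gauss valuation is invariant under the diamond operators.** -/
theorem wred {p : ℕ} (hp : p.Prime) (hA : A.LiesOverPrime p) (hN : ¬ p ∣ N) (g : Gamma0 N)
    (x : FK Qb (GamH N H)) (hx : Q.Red A (x : LaurentSeries Qb) 0) :
    Q.Red A (dia Qb H g x : LaurentSeries Qb) 0 := by
  obtain ⟨v, hv, h0⟩ := red_dia hp hA hN g hx
  rwa [h0 rfl] at hv

/-- **`PrimFK`.** -/
theorem primFK {p : ℕ} (hp : p.Prime) (hA : A.LiesOverPrime p) (hN : ¬ p ∣ N) {m : ℕ}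
    (hm : m ≠ 0) : PrimFK H A m := by
  intro f hf
  obtain ⟨F, hF, G, hG, hx⟩ := mem_FK_iff.mp f.2
  have hF0 : F ≠ 0 := by
    rintro rfl
    exact hf (Subtype.ext (by rw [hx, zero_div]; rfl))
  have hG0 : G ≠ 0 := by
    rintro rfl
    exact hf (Subtype.ext (by rw [hx, div_zero]; rfl))
  obtain ⟨n, rfl⟩ := Nat.exists_eq_succ_of_ne_zero hm
  have hFG : F * G ^ n ∈ ringS Qb (GamH N H) := mul_mem hF (pow_mem hG n)
  have hFG0 : (⟨F * G ^ n, mem_FK_of_mem hFG⟩ : FK Qb (GamH N H)) ≠ 0 := fun h0 =>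
    mul_ne_zero hF0 (pow_ne_zero n hG0) (congrArg Subtype.val h0)
  obtain ⟨c, hc, hcp⟩ := exists_prim_dia hp hA hN (x := ⟨F * G ^ n, mem_FK_of_mem hFG⟩) hFG hFG0
  obtain ⟨d, hd⟩ := IsAlgClosed.exists_pow_nat_eq c (Nat.succ_pos n)
  have hd0 : d ≠ 0 := by
    rintro rfl
    rw [zero_pow (Nat.succ_ne_zero n)] at hd
    exact hc hd.symm
  set h : FK Qb (GamH N H) := algebraMap Qb (FK Qb (GamH N H)) d * ⟨G, mem_FK_of_mem hG⟩ with hh
  have hne : (⟨G, mem_FK_of_mem hG⟩ : FK Qb (GamH N H)) ≠ 0 := fun h0 =>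
    hG0 (congrArg Subtype.val h0)
  refine ⟨h, mul_ne_zero ((map_ne_zero _).mpr hd0) hne, fun g => ?_⟩
  have h1 : f * h ^ n.succ = algebraMap Qb (FK Qb (GamH N H)) c *
      ⟨F * G ^ n, mem_FK_of_mem hFG⟩ := by
    have h2 : f * (⟨G, mem_FK_of_mem hG⟩ : FK Qb (GamH N H)) = ⟨F, mem_FK_of_mem hF⟩ := by
      apply Subtype.ext
      show (f : LaurentSeries Qb) * G = F
      rw [hx, div_mul_cancel₀ _ hG0]
    have h3 : (⟨F * G ^ n, mem_FK_of_mem hFG⟩ : FK Qb (GamH N H)) =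
        ⟨F, mem_FK_of_mem hF⟩ * (⟨G, mem_FK_of_mem hG⟩ : FK Qb (GamH N H)) ^ n := rfl
    rw [h3, ← h2, hh, mul_pow, ← map_pow, hd, pow_succ']
    ring
  rw [h1, map_mul, AlgHom.commutes]
  have h4 : ((algebraMap Qb (FK Qb (GamH N H)) c *
      dia Qb H g ⟨F * G ^ n, mem_FK_of_mem hFG⟩ : FK Qb (GamH N H)) : LaurentSeries Qb) =
      HahnSeries.C c * (dia Qb H g ⟨F * G ^ n, mem_FK_of_mem hFG⟩ : LaurentSeries Qb) := by
    rw [← Q.algebraMap_eq_C]
    rfl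
  show Prim A _
  rw [Prim, h4]
  exact hcp g

end Fermat.Agent.H03K
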