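import Fermat.Agent.H03K.Alpha1
import Fermat.Agent.H11J.Iface
import Fermat.Agent.Q.Residue2

/-!
# Invariance of the Gauss valuation on the function fields of `Γ_H(N)` and primitive functions
-/

set_option autoImplicit false
set_option linter.all false

noncomputable section

open UpperHalfPlane hiding I
open ModularForm EisensteinSeries Filter Complex Topology Function CongruenceSubgroup
open scoped MatrixGroups Manifold Real Polynomial Pointwise
open IsLocalRing (residue ResidueField)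

namespace Fermat.Agent.H03K

open Fermat.Agent.H18J
open Fermat.Agent.H02
open Fermat.Agent.H22 (GamH dChar)
open Fermat.Agent.H02G (pm mem_pm le_pm neg_mem_pm mfq)
open Fermat.Agent.Q (intL mem_intL redL redL_coeff redL_eq_zero_iff C_mem_intL redL_C Red FL DD
  finL bddL intL_le_bddL DD_le_FL C_mem_FL)
open Fermat.Agent.H18 (jfun theta theta_injective isExp_fun_unique isExp_jfun theta_jqModC
  theta_qExpand isExp_aeval jfun_surjective exists_unit_zr exists_exp_aff ratFuncAlgebra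
  ratFuncAlgebra_tower ratFuncAlgebra_X)
open Fermat.Agent.Igusa (IsExp TT cc jd twist twist_coeff zr)
open ModularCurve (coeffMap qExpand jqModC coeffMap_qExpand modularFunctionFieldFullC
  modularFunctionFieldFull laurentBaseChange)

/-! ### All expansions lie in `FL` -/

section FLL

variable {K : Type*} [Field K] [Algebra ℚ K] {A : ValuationSubring K}

theorem qExpand_mem_DD (n : ℕ) [NeZero n] {x : LaurentSeries K} (hx : x ∈ DD A) :
    qExpand K n x ∈ DD A := by
  obtain ⟨⟨c, hc, hc0, hcx⟩, E, hE, h⟩ := hx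
  refine ⟨⟨c, hc, hc0, ?_⟩, E, hE, fun m => ?_⟩
  · have h1 : HahnSeries.C c * qExpand K n x = qExpand K n (HahnSeries.C c * x) := by
      rw [map_mul, ← Q.algebraMap_eq_C, qExpand_algebraMap']
    rw [h1]
    exact (qExpand_mem_intL_iff n).mpr hcx
  · by_cases hm : (n : ℤ) ∣ m
    · obtain ⟨k, rfl⟩ := hm
      rw [ModularCurve.qExpand_coeff_mul]
      exact h k
    · rw [ModularCurve.qExpand_coeff_of_not_dvd n _ hm]
      exact zero_mem E

theorem cc_mem_DD (t : LaurentSeries ℤ) : cc K t ∈ DD A := by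
  refine ⟨intL_le_bddL (by
    rw [mem_intL]
    intro n
    rw [ModularCurve.coeffMap_coeff]
    exact intCast_mem A _), ⊥, inferInstance, fun n => ?_⟩
  rw [ModularCurve.coeffMap_coeff]
  exact intCast_mem _ _

theorem coeffMap_cc {R S : Type*} [CommRing R] [CommRing S] (f : R →+* S) (t : LaurentSeries ℤ) :
    coeffMap f (cc R t) = cc S t := by
  ext n
  rw [ModularCurve.coeffMap_coeff, ModularCurve.coeffMap_coeff, ModularCurve.coeffMap_coeff]
  simp

theorem jqModC_eq_cc : jqModC K = cc K (jqModC ℤ) := (ModularCurve.coeffMap_jqModC _).symm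

theorem twist_mem_DD {u : Kˣ} {n : ℕ} (hn : 0 < n) (hu : (u : K) ^ n = 1) {x : LaurentSeries K}
    (hx : x ∈ intL A) (hx' : ∀ n, x.coeff n ∈ (⊥ : IntermediateField ℚ K)) :
    twist u x ∈ DD A := by
  have hui : ((u⁻¹ : Kˣ) : K) ^ n = 1 := by
    rw [← Units.val_pow_eq_pow_val, inv_pow]
    have : u ^ n = 1 := Units.ext (by rw [Units.val_pow_eq_pow_val, hu, Units.val_one])
    rw [this, inv_one, Units.val_one]
  refine ⟨intL_le_bddL (twist_mem_intL (mem_of_pow_eq_one hn hu) (mem_of_pow_eq_one hn hui) hx),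
    IntermediateField.adjoin ℚ {(u : K)}, ?_, fun m => ?_⟩
  · apply IntermediateField.adjoin.finiteDimensional
    exact ⟨Polynomial.X ^ n - 1, Polynomial.monic_X_pow_sub_C 1 hn.ne', by simp [hu]⟩
  · rw [twist_coeff, Units.val_zpow_eq_zpow_val]
    exact mul_mem (bot_le (a := IntermediateField.adjoin ℚ {(u : K)}) (hx' m))
      (zpow_mem (IntermediateField.mem_adjoin_simple_self ℚ (u : K)) m)

end FLL

section Gen

variable {K : Type*} [Field K] [Algebra K ℂ] [IsAlgClosed K] [Algebra ℚ K]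
  [Algebra.IsAlgebraic ℚ K] (A : ValuationSubring K) {N : ℕ} [NeZero N]

variable (N) in
/-- elements whose expansions are in `FL` -/
def frF : IntermediateField (RatFunc K) (MF K N) :=
  ((FL A).comap (expM K N).toRingHom).toIntermediateField fun r => by
    have h1 : ((FL A).comap (expM K N).toRingHom : Subfield (MF K N)) =
        ((((FL A).comap (expM K N).toRingHom).toIntermediateField fun c => by
          show expM K N (algebraMap K (MF K N) c) ∈ FL A
          rw [AlgHom.commutes, Q.algebraMap_eq_C]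
          exact C_mem_FL c : IntermediateField K (MF K N))).toSubfield := rfl
    rw [h1]
    apply algebraMap_ratFunc_mem K
    show expM K N (jM K N) ∈ FL A
    rw [jM, expM_algebraMap, expK_jF]
    refine DD_le_FL (qExpand_mem_DD N ?_)
    rw [jqModC_eq_cc]
    exact cc_mem_DD _

theorem mem_frF {y : MF K N} : y ∈ frF A N ↔ expM K N y ∈ FL A := Iff.rfl

theorem exp_jNB_mem_FL (γ : SL(2, ℤ)) : expK K N (γ • jNB N) ∈ FL A := by
  obtain ⟨a, e, ha, he, u, hae, hu, -, h⟩ := exists_exp_jNB (K := K) (N := N) γ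
  have hNz : NeZero (a * a) := ⟨(Nat.mul_pos ha ha).ne'⟩
  rw [h hNz]
  have hu1 : (u : K) ^ N = 1 := by rw [← Units.val_pow_eq_pow_val, hu, Units.val_one]
  refine DD_le_FL (qExpand_mem_DD _ (twist_mem_DD (NeZero.pos N) hu1 jqModC_mem_intL fun n => ?_))
  rw [jqModC_eq_cc, ModularCurve.coeffMap_coeff]
  exact intCast_mem _ _

/-- **All expansions are in `FL`.** -/
theorem expM_mem_FL (y : MF K N) : expM K N y ∈ FL A := by
  rw [← mem_frF]
  have h1 : (frF A N).fixingSubgroup = ⊥ := by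
    rw [eq_bot_iff]
    intro σ hσ
    obtain ⟨γ, rfl⟩ := rho_surjective σ
    rw [IntermediateField.mem_fixingSubgroup_iff] at hσ
    rw [Subgroup.mem_bot, rho_eq_one_iff]
    apply mem_pm_Gamma_of
    · intro δ
      have h2 := hσ (algebraMap (bigAlg K N) (MF K N) (δ⁻¹ • jNB N)) (by
        rw [mem_frF, expM_algebraMap]
        exact exp_jNB_mem_FL A _)
      have h3 := tr_eq_of_rho h2
      rw [coe_jNB_smul] at h3
      apply mem_Gamma0_of_tr_jN (NeZero.pos N)
      rw [← tr_tr, ← tr_tr, h3, tr_tr, mul_inv_cancel, tr_one]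
    · intro hne
      have h2 := hσ (algebraMap (bigAlg K N) (MF K N) ⟨hfun N 1, hfun_mem_bigAlg hne⟩) (by
        rw [mem_frF, expM_algebraMap]
        have h3 : IsExp N (hfun N 1) (theta K (qExpand K N (hS K N 1))) := by
          rw [theta_qExpand, coeffMap_hS]
          exact (Igusa.isExp_qExpand_iff N).mpr (isExp_hfun hne)
        rw [expK_eq (f := (⟨hfun N 1, hfun_mem_bigAlg hne⟩ : bigAlg K N)) h3]
        refine DD_le_FL (qExpand_mem_DD N ?_)
        have h4 : hS K N 1 = cc K (hS ℤ N 1) := (coeffMap_hS _ 1).symm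
        rw [h4]
        exact cc_mem_DD _)
      exact tr_eq_of_rho h2
  have h2 : frF A N = ⊤ := by
    rw [← IsGalois.fixedField_fixingSubgroup (frF A N), h1, IntermediateField.fixedField_bot]
  rw [h2]
  exact IntermediateField.mem_top

theorem expK_mem_FL (f : bigAlg K N) : expK K N f ∈ FL A := by
  rw [← expM_algebraMap]; exact expM_mem_FL A _

/-- expansions of functions are bounded, with coefficients in a number field. -/
theorem expK_mem_DD [MulArchimedean A.ValueGroup] (f : bigAlg K N) : expK K N f ∈ DD A := by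
  refine Q.mem_DD_of_FL (expK_mem_FL A f) (Q.mem_bddL_of_isIntegral (expK_mem_FL A f) ?_)
  obtain ⟨P, hP, h⟩ := exists_monic f
  have hj : ∀ p : K[X], expK K N (Polynomial.aeval (jF K N) p) ∈ bddL A := by
    intro p
    rw [← Polynomial.aeval_algHom_apply, expK_jF, Polynomial.aeval_eq_sum_range]
    refine sum_mem fun i _ => ?_
    rw [Algebra.smul_def, Q.algebraMap_eq_C]
    refine mul_mem (Q.C_mem_bddL _) (pow_mem (intL_le_bddL ?_) i)
    exact (qExpand_mem_intL_iff N).mpr jqModC_mem_intL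
  refine ⟨P.map (((expK K N).toRingHom.comp (Polynomial.aeval (jF K N)).toRingHom).codRestrict
    (bddL A) hj), hP.map _, ?_⟩
  rw [Polynomial.eval₂_map]
  have h2 := Polynomial.hom_eval₂ P (Polynomial.aeval (jF K N)).toRingHom
    (expK K N).toRingHom f
  rw [h, map_zero] at h2
  exact h2.symm

variable {A}

/-- **BETA**: every function is, up to a constant, integral and primitive at all cusps. -/
theorem exists_prim {p : ℕ} (hp : p.Prime) (hA : A.LiesOverPrime p) (hN : ¬ p ∣ N)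
    {X : bigAlg K N} (hX : X ≠ 0) : ∃ (c : K) (Y : intB A N), c ≠ 0 ∧
      (Y : bigAlg K N) = algebraMap K (bigAlg K N) c * X ∧
      ∀ γ : SL(2, ℤ), thB A N (γ • Y) ≠ 0 := by
  classical
  have : CharZero K := (algebraMap K ℂ).charZero
  have := H08.mulArchimedean_valueGroup hp hA
  have hk : ((N : ℕ) : ResidueField A) ≠ 0 := 
    Q.natCast_residue_ne_zero hp hA ((Nat.Prime.coprime_iff_not_dvd hp).mpr hN)
  have := Fintype.ofFinite (Gfin K N)
  have h1 : ∀ g : Gfin K N, ∃ (c : K) (_ : c ≠ 0)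
      (h : HahnSeries.C c * expK K N (g • X) ∈ intL A), redL A ⟨_, h⟩ ≠ 0 := by
    intro g
    apply Q.exists_redL_ne_zero hp hA (expK_mem_DD A _)
    intro h0
    apply hX
    have h2 : g • X = 0 := expK_injective (h0.trans (map_zero _).symm)
    exact (smul_eq_zero_iff_eq g).mp h2
  choose c hc0 hc hcr using h1
  obtain ⟨g₀, -, hg₀⟩ := Finset.exists_min_image (Finset.univ : Finset (Gfin K N))
    (fun g => A.valuation (c g)) ⟨1, Finset.mem_univ _⟩
  have hsm : ∀ γ : SL(2, ℤ), γ • (algebraMap K (bigAlg K N) (c g₀) * X) =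
      algebraMap K (bigAlg K N) (c g₀) * (toGfin K N γ • X) := by
    intro γ
    rw [smul_mul', toGfin_smul]
    rfl
  have hY : algebraMap K (bigAlg K N) (c g₀) * X ∈ intB A N := by
    intro γ
    rw [hsm, map_mul, AlgHom.commutes, Q.algebraMap_eq_C]
    have h2 : c g₀ / c (toGfin K N γ) ∈ A := by
      rw [← A.valuation_le_one_iff, map_div₀]
      exact div_le_one_of_le₀ (hg₀ _ (Finset.mem_univ _)) zero_le
    have h3 : (HahnSeries.C (c g₀) : LaurentSeries K) =
        HahnSeries.C (c g₀ / c (toGfin K N γ)) * HahnSeries.C (c (toGfin K N γ)) := by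
      rw [← map_mul, div_mul_cancel₀ _ (hc0 _)]
    rw [h3, mul_assoc]
    exact mul_mem (C_mem_intL h2) (hc _)
  obtain ⟨γ₀, hγ₀⟩ := toGfin_surjective g₀
  have h4 : thB A N (γ₀ • (⟨_, hY⟩ : intB A N)) ≠ 0 := by
    rw [thB_apply]
    intro h0
    apply hcr g₀
    rw [← h0]
    congr 1
    apply Subtype.ext
    show _ = expK K N (γ₀ • (algebraMap K (bigAlg K N) (c g₀) * X))
    rw [hsm, map_mul, AlgHom.commutes, Q.algebraMap_eq_C, hγ₀]
  refine ⟨c g₀, ⟨_, hY⟩, hc0 _, rfl, fun γ h5 => h4 ?_⟩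
  rw [alpha hk] at h5
  rw [alpha hk]
  exact h5

end Gen

/-! ### Functions of level `Γ_H(N)` -/

section FKS

open Fermat.Agent.H11J (Prim)

variable {K : Type*} [Field K] [Algebra K ℂ] [IsAlgClosed K] [Algebra ℚ K]
  [Algebra.IsAlgebraic ℚ K] {A : ValuationSubring K} {N : ℕ} [NeZero N]
  {H : Subgroup (ZMod N)ˣ}

/-- the primitivity of a Laurent series -/
def PrimL (A : ValuationSubring K) (f : LaurentSeries K) : Prop :=
  ∃ h : f ∈ intL A, redL A ⟨f, h⟩ ≠ 0

theorem primL_of_qExpand {f : LaurentSeries K} (h : PrimL A (qExpand K N f)) : PrimL A f := by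
  obtain ⟨h1, h2⟩ := h
  have h3 := (qExpand_mem_intL_iff N).mp h1
  refine ⟨h3, fun h0 => h2 ?_⟩
  rw [redL_qExpand N h3 h1, h0, map_zero]

/-- every holomorphic function is primitive up to a constant, together with its transforms under
the diamond operators. -/
theorem exists_prim_dia {p : ℕ} (hp : p.Prime) (hA : A.LiesOverPrime p) (hN : ¬ p ∣ N)
    {x : FK K (GamH N H)} (hx : (x : LaurentSeries K) ∈ ringS K (GamH N H)) (hx0 : x ≠ 0) :
    ∃ c : K, c ≠ 0 ∧ ∀ g : Gamma0 N,
      PrimL A (HahnSeries.C c * (dia K H g x : LaurentSeries K)) := by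
  obtain ⟨x, hx'⟩ := x
  obtain ⟨f, hf, hF⟩ := hx
  change IsExp 1 f (theta K x) at hF
  set a : bigAlg K N := ⟨f, mem_bigAlg_of_ringS hf hF⟩ with ha
  have ha0 : a ≠ 0 := by
    intro h0
    apply hx0
    have h1 : f = 0 := congrArg (fun y : bigAlg K N => (y : ℍ → ℂ)) h0
    have h2 : theta K x = 0 := by
      rw [h1] at hF
      exact hF.unique one_pos IsExp.zero
    apply Subtype.ext
    exact theta_injective (h2.trans (map_zero _).symm)
  obtain ⟨c, Y, hc, hY, hYp⟩ := exists_prim hp hA hN ha0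
  refine ⟨c, hc, fun g => ?_⟩
  -- the expansion of the transform
  have hg : ((((g : SL(2, ℤ))⁻¹ • a : bigAlg K N)) : ℍ → ℂ) = tr (g : SL(2, ℤ)) f := by
    rw [H18J.coe_smul, inv_inv]
  have hgm := tr_mem_modAlg_GamH (H := H) g hf
  obtain ⟨F', hF', hF2⟩ := exists_ringS (a := (g : SL(2, ℤ))⁻¹ • a) (by
    rw [hg]
    exact hgm.2 _ (isLevel_GamH (N := N) (H := H)).T_mem)
  rw [hg] at hF'
  have h1 : (dia K H g (⟨x, hx'⟩ : FK K (GamH N H)) : LaurentSeries K) = F' :=
    congrArg Subtype.val (dia_of_ringS g hf hF hF')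
  rw [h1]
  apply primL_of_qExpand (N := N)
  have h2 : qExpand K N (HahnSeries.C c * F') =
      expK K N (((g : SL(2, ℤ))⁻¹ • Y : intB A N) : bigAlg K N) := by
    rw [map_mul, hF2, ← Q.algebraMap_eq_C, qExpand_algebraMap', coe_smulB, hY, smul_mul']
    rw [map_mul]
    congr 1
    have h3 : (g : SL(2, ℤ))⁻¹ • algebraMap K (bigAlg K N) c = algebraMap K (bigAlg K N) c := rfl
    rw [h3, AlgHom.commutes]
  rw [h2]
  exact ⟨exp_memB _, hYp _⟩

theorem PrimL.red {f : LaurentSeries K} (h : PrimL A f) : ∃ u, u ≠ 0 ∧ Red A f u := by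
  obtain ⟨h1, h2⟩ := h
  exact ⟨_, h2, Red.of_intL ⟨f, h1⟩⟩

theorem C_ne_zero {c : K} (hc : c ≠ 0) : (HahnSeries.C c : LaurentSeries K) ≠ 0 := by
  rwa [ne_eq, map_eq_zero]

/-- **The Gauss valuation is invariant under the diamond operators.** -/
theorem red_dia {p : ℕ} (hp : p.Prime) (hA : A.LiesOverPrime p) (hN : ¬ p ∣ N)
    (g : Gamma0 N) {x : FK K (GamH N H)} {u : LaurentSeries (ResidueField A)}
    (hu : Red A (x : LaurentSeries K) u) :
    ∃ v, Red A (dia K H g x : LaurentSeries K) v ∧ (u = 0 → v = 0) := by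
  by_cases hx0 : x = 0
  · subst hx0
    exact ⟨0, by rw [map_zero]; exact Red.zero, fun _ => rfl⟩
  obtain ⟨F, hF, G, hG, hx⟩ := mem_FK_iff.mp x.2
  have hF0 : (⟨F, mem_FK_of_mem hF⟩ : FK K (GamH N H)) ≠ 0 := by
    intro h0
    apply hx0
    apply Subtype.ext
    have h1 : F = 0 := congrArg Subtype.val h0
    rw [hx, h1, zero_div]
    rfl
  have hG0 : (⟨G, mem_FK_of_mem hG⟩ : FK K (GamH N H)) ≠ 0 := by
    intro h0
    apply hx0
    apply Subtype.ext
    have h1 : G = 0 := congrArg Subtype.val h0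
    rw [hx, h1, div_zero]
    rfl
  obtain ⟨c, hc, hcp⟩ := exists_prim_dia hp hA hN (x := ⟨F, mem_FK_of_mem hF⟩) hF hF0
  obtain ⟨d, hd, hdp⟩ := exists_prim_dia hp hA hN (x := ⟨G, mem_FK_of_mem hG⟩) hG hG0
  have hxx : x = (⟨F, mem_FK_of_mem hF⟩ : FK K (GamH N H)) / ⟨G, mem_FK_of_mem hG⟩ :=
    Subtype.ext hx
  have key : ∀ g : Gamma0 N, (dia K H g x : LaurentSeries K) = HahnSeries.C (d / c) *
      ((HahnSeries.C c * (dia K H g ⟨F, mem_FK_of_mem hF⟩ : LaurentSeries K)) /
        (HahnSeries.C d * (dia K H g ⟨G, mem_FK_of_mem hG⟩ : LaurentSeries K))) := by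
    intro g
    have h1 : (dia K H g x : LaurentSeries K) =
        (dia K H g ⟨F, mem_FK_of_mem hF⟩ : LaurentSeries K) /
          (dia K H g ⟨G, mem_FK_of_mem hG⟩ : LaurentSeries K) := by
      rw [hxx, map_div₀]
      rfl
    have h2 := C_ne_zero hc
    have h3 := C_ne_zero hd
    rw [h1, map_div₀]
    by_cases h4 : (dia K H g ⟨G, mem_FK_of_mem hG⟩ : LaurentSeries K) = 0
    · rw [h4, mul_zero, div_zero, div_zero, mul_zero]
    · field_simp
  obtain ⟨u₁, hu₁, hr₁⟩ := (hcp 1).red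
  obtain ⟨u₂, hu₂, hr₂⟩ := (hdp 1).red
  obtain ⟨v₁, hv₁, hs₁⟩ := (hcp g).red
  obtain ⟨v₂, hv₂, hs₂⟩ := (hdp g).red
  have h1 := key 1
  rw [dia_one] at h1
  rw [h1] at hu
  obtain ⟨he, hue⟩ := hu.scale (hr₁.div hr₂ hu₂) (div_ne_zero hu₁ hu₂)
  refine ⟨HahnSeries.C (residue A ⟨d / c, he⟩) * (v₁ / v₂), ?_, fun h0 => ?_⟩
  · rw [key g]
    exact (Red.C he).mul (hs₁.div hs₂ hv₂)
  · rw [h0] at hue
    rw [(mul_eq_zero.mp hue.symm).resolve_right (div_ne_zero hu₁ hu₂), zero_mul]

end FKS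

end Fermat.Agent.H03K
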